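/-
PROJECT U / S35 (slice [S35-b], helper25): THE VALUE AT A NODE UNDER A SEMILINEAR AUTOMORPHISM.

Vocabulary of `S34/GlueG/ValueAt.lean`: `O` a valuation subring of `FL` with reduction
`red : O →+* Fk` (kernel = maximal ideal), `Q` a place of `Fk/k` of degree one,
`compVal O red hred Q = red⁻¹(O_Q)` the composite valuation ring and
`compEval O red hred Q hQ : compVal → k` the value of the reduction at `Q`.

`ValueAt.map_mem_and_ev_eq` treats an automorphism `s` of `FL` acting TRIVIALLY on the residue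
field (an inertia element).  Here `s` acts on `O` through a ring endomorphism `T` of `Fk`
(`red (s y) = T (red y)`) which is `τ`-semilinear over `k` (`T c = τ c` on constants) and
preserves the place `Q` (`hTle`, `hTlt`): an element of the DECOMPOSITION group, `τ` its action on
the residue field `k`, `Q` a `τ`-stable place.  Then

* `map_mem_and_ev_twist` : `y ∈ compVal → s y ∈ compVal ∧ ev (s y) = τ (ev y)`;
* `map_mem_and_ev_pow`   : if moreover `τ c = c ^ Q'` (`Q'` a power of the residue characteristic,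
  `τ` a power of Frobenius) then `ev (s y) = ev y ^ Q'`  [= the hypotheses `hs₁`, `hs₂` of
  `S35/GlueGFrob.eval_eq_of_localGenerator_pow`];
* `valueAt_twist` : the statement on `Fk` alone;
* `adicValuation_le_lt_of_ord_eq` : the stability hypotheses from `Q.ord (T u) = Q.ord u`;
* `hasValue_twist`, `hasValue_pow` : the same in the `HasValue` language of `S34/NodalDefs`.
-/
import Mathlib
import Fermat.Agent.S34.GlueG.ValueAt

set_option autoImplicit false

noncomputable section

namespace Fermat.Agent.S34.Decomp.ValueTwist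

open AlgebraicCurve Fermat.Agent.S24.Ord Fermat.Agent.S18.CoreOrd Fermat.Agent.S34.GlueG
  Fermat.Agent.S34.GlueG.ValueAt

variable {k : Type*} {Fk : Type*} [Field k] [Field Fk] [Algebra k Fk]

/-- the value at a `T`-stable place of degree one is `τ`-semilinear -/
theorem valueAt_twist (Q : Place k Fk) (hQ : Q.deg = 1) (T : Fk →+* Fk) (τ : k →+* k)
    (hTc : ∀ c : k, T (algebraMap k Fk c) = algebraMap k Fk (τ c))
    (hTlt : ∀ u : Fk, Q.adicValuation u < 1 → Q.adicValuation (T u) < 1)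
    (u : Q.toValuationSubring) (hu : T (u : Fk) ∈ Q.toValuationSubring) :
    valueAt Q hQ ⟨T (u : Fk), hu⟩ = τ (valueAt Q hQ u) := by
  rw [valueAt_eq_iff]
  have h1 : valueAt Q hQ u = valueAt Q hQ u := rfl
  rw [valueAt_eq_iff] at h1
  have h2 := hTlt _ h1
  rwa [map_sub, hTc] at h2

variable {FL : Type*} [Field FL]
variable (O : ValuationSubring FL) (red : O →+* Fk) (hred : ∀ u : O, red u = 0 ↔ ¬ IsUnit u)
  (Q : Place k Fk)

/-- **the value at a stable node under a semilinear automorphism** -/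
theorem map_mem_and_ev_twist (hQ : Q.deg = 1) (s : FL ≃+* FL) (T : Fk →+* Fk) (τ : k →+* k)
    (hs : ∀ (y : FL) (h : y ∈ O), ∃ h' : s y ∈ O, red ⟨s y, h'⟩ = T (red ⟨y, h⟩))
    (hTc : ∀ c : k, T (algebraMap k Fk c) = algebraMap k Fk (τ c))
    (hTle : ∀ u : Fk, Q.adicValuation u ≤ 1 → Q.adicValuation (T u) ≤ 1)
    (hTlt : ∀ u : Fk, Q.adicValuation u < 1 → Q.adicValuation (T u) < 1)
    (y : FL) (hy : y ∈ compVal O red hred Q) :
    s y ∈ compVal O red hred Q ∧
      ev (compVal O red hred Q).toSubring (compEval O red hred Q hQ) (s y) =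
        τ (ev (compVal O red hred Q).toSubring (compEval O red hred Q hQ) y) := by
  obtain ⟨h', he⟩ := hs y hy.1
  have hTmem : T (red ⟨y, hy.1⟩) ∈ Q.toValuationSubring :=
    (mem_iff Q _).mpr (hTle _ ((mem_iff Q _).mp hy.2))
  have hm : s y ∈ compVal O red hred Q := ⟨h', by rw [he]; exact hTmem⟩
  refine ⟨hm, ?_⟩
  rw [ev_of_mem (show s y ∈ (compVal O red hred Q).toSubring from hm),
    ev_of_mem (show y ∈ (compVal O red hred Q).toSubring from hy), compEval_apply, compEval_apply]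
  rw [← valueAt_twist Q hQ T τ hTc hTlt ⟨red ⟨y, hy.1⟩, hy.2⟩ hTmem]
  congr 1
  exact Subtype.ext he

/-- the Frobenius form: `τ c = c ^ Q'` -/
theorem map_mem_and_ev_pow (hQ : Q.deg = 1) (s : FL ≃+* FL) (T : Fk →+* Fk) (τ : k →+* k)
    (Q' : ℕ) (hτ : ∀ c : k, τ c = c ^ Q')
    (hs : ∀ (y : FL) (h : y ∈ O), ∃ h' : s y ∈ O, red ⟨s y, h'⟩ = T (red ⟨y, h⟩))
    (hTc : ∀ c : k, T (algebraMap k Fk c) = algebraMap k Fk (τ c))
    (hTle : ∀ u : Fk, Q.adicValuation u ≤ 1 → Q.adicValuation (T u) ≤ 1)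
    (hTlt : ∀ u : Fk, Q.adicValuation u < 1 → Q.adicValuation (T u) < 1)
    (y : FL) (hy : y ∈ compVal O red hred Q) :
    s y ∈ compVal O red hred Q ∧
      ev (compVal O red hred Q).toSubring (compEval O red hred Q hQ) (s y) =
        ev (compVal O red hred Q).toSubring (compEval O red hred Q hQ) y ^ Q' := by
  obtain ⟨h1, h2⟩ := map_mem_and_ev_twist O red hred Q hQ s T τ hs hTc hTle hTlt y hy
  exact ⟨h1, by rw [h2, hτ]⟩

/-- the stability hypotheses `hTle`, `hTlt` from the invariance of `ord` -/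
theorem adicValuation_le_lt_of_ord_eq (T : Fk →+* Fk)
    (hT : ∀ u : Fk, u ≠ 0 → Q.ord (T u) = Q.ord u) :
    (∀ u : Fk, Q.adicValuation u ≤ 1 → Q.adicValuation (T u) ≤ 1) ∧
      (∀ u : Fk, Q.adicValuation u < 1 → Q.adicValuation (T u) < 1) := by
  have hT0 : ∀ u : Fk, u ≠ 0 → T u ≠ 0 := fun u hu => (map_ne_zero T).mpr hu
  constructor
  · intro u hu
    rcases eq_or_ne u 0 with rfl | hu0
    · simp
    · rw [← ord_nonneg_iff Q (hT0 u hu0), hT u hu0, ord_nonneg_iff Q hu0]
      exact hu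
  · intro u hu
    rcases eq_or_ne u 0 with rfl | hu0
    · simp
    · rw [← ord_pos_iff Q (hT0 u hu0), hT u hu0, ord_pos_iff Q hu0]
      exact hu

/-- the `HasValue` form (`S34/NodalDefs.HasValue`, unfolded): at a `T`-stable place, `φ` has value
`γ` ⟹ `T φ` has value `τ γ` -/
theorem hasValue_twist (T : Fk →+* Fk) (τ : k →+* k)
    (hTc : ∀ c : k, T (algebraMap k Fk c) = algebraMap k Fk (τ c))
    (hT : ∀ u : Fk, u ≠ 0 → Q.ord (T u) = Q.ord u) {φ : Fk} {γ : k}
    (h : φ = algebraMap k Fk γ ∨ 0 < Q.ord (φ - algebraMap k Fk γ)) :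
    T φ = algebraMap k Fk (τ γ) ∨ 0 < Q.ord (T φ - algebraMap k Fk (τ γ)) := by
  rcases h with h | h
  · exact Or.inl (by rw [h, hTc])
  · right
    have hne : φ - algebraMap k Fk γ ≠ 0 := by
      intro h0
      rw [h0, Place.ord_zero] at h
      exact lt_irrefl _ h
    rw [← hTc, ← map_sub, hT _ hne]
    exact h

/-- the Frobenius form of `hasValue_twist`: `τ c = c ^ Q'` -/
theorem hasValue_pow (T : Fk →+* Fk) (Q' : ℕ)
    (hTc : ∀ c : k, T (algebraMap k Fk c) = algebraMap k Fk (c ^ Q'))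
    (hT : ∀ u : Fk, u ≠ 0 → Q.ord (T u) = Q.ord u) {φ : Fk} {γ : k}
    (h : φ = algebraMap k Fk γ ∨ 0 < Q.ord (φ - algebraMap k Fk γ)) :
    T φ = algebraMap k Fk (γ ^ Q') ∨ 0 < Q.ord (T φ - algebraMap k Fk (γ ^ Q')) := by
  rcases h with h | h
  · exact Or.inl (by rw [h, hTc])
  · right
    have hne : φ - algebraMap k Fk γ ≠ 0 := by
      intro h0
      rw [h0, Place.ord_zero] at h
      exact lt_irrefl _ h
    rw [← hTc, ← map_sub, hT _ hne]
    exact h

end Fermat.Agent.S34.Decomp.ValueTwist
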